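import Fermat.Agent.S55.Local.Spec

/-!
# S55, layer L, glue T1a + T1b by the cyclic shortcut (helper415)

* `unramUnitsH1 : UnramUnitsH1Statement` is proved UNCONDITIONALLY: Hilbert 90 (Mathlib) gives
  `c g = g • m₀ / m₀` with `m₀ : Lˣ`; `IsUnram` writes `m₀ = y * u` with `y ∈ Kˣ`, `u ∈ U_L`, and
  `g • m₀ / m₀ = g • u / u`.  No completeness, no filtration.
* `unramUnitsH2_of : UnramCyclicStatement → CycCocycleCoboundaryIffStatement →
    CycCocycleSurjStatement → UnramNormUnitsStatement → UnramUnitsH2Statement`: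
  the Galois group is cyclic (UR1); in the `G`-module `U_L` every 2-cocycle is cohomologous to a
  standard cyclic cocycle `cycCocycle σ x`, `x ∈ U_L^G = U_K` (A4c); `x` is the norm of a unit (UR4),
  hence the standard cocycle is a coboundary in `U_L` (A4b).

So the pieces UR2, UR3, A1, A2, FF1a, FF1b, FF2 are not needed for T1a/T1b.
-/

set_option autoImplicit false

namespace Fermat.Agent.S55.Local.H415

open groupCohomology Fermat.Agent.S55.Local

section Basic

variable (A F : Type) [CommRing A] [Field F] [Algebra A F]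
variable (K : Type) [Field K] [Algebra F K]
variable (L : Type) [Field L] [Algebra F L] [Algebra K L] [IsScalarTower F K L]

/-- `toL A F L` factors through `K`. -/
lemma toL_eq_comp (a : A) : toL A F L a = algebraMap K L (toL A F K a) := by
  simp only [toL_apply]
  exact IsScalarTower.algebraMap_apply F K L _

variable {A F K L} in
/-- A `K`-algebra automorphism of `L` preserves integrality over `A`. -/
lemma isInt_algEquiv (σ : L ≃ₐ[K] L) {x : L} (hx : IsInt A F L x) : IsInt A F L (σ x) := by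
  obtain ⟨p, hp, hpx⟩ := hx
  refine ⟨p, hp, ?_⟩
  have h1 : (σ : L →+* L).comp (toL A F L) = toL A F L := by
    ext a
    simp only [RingHom.comp_apply, toL_eq_comp A F K L a]
    exact σ.commutes _
  have h2 := Polynomial.hom_eval₂ p (toL A F L) (σ : L →+* L) x
  rw [h1] at h2
  rw [← show (σ : L →+* L) x = σ x from rfl, ← h2, hpx, map_zero]

variable {A F K L} in
/-- Integrality over `A` of an element of `K` can be tested in `L`. -/
lemma isInt_of_isInt_algebraMap {y : K} (hy : IsInt A F L (algebraMap K L y)) : IsInt A F K y := by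
  obtain ⟨p, hp, hpx⟩ := hy
  refine ⟨p, hp, ?_⟩
  have h1 : (algebraMap K L).comp (toL A F K) = toL A F L := by
    ext a
    simp only [RingHom.comp_apply, toL_eq_comp A F K L a]
  have h2 := Polynomial.hom_eval₂ p (toL A F K) (algebraMap K L) y
  rw [h1, hpx] at h2
  exact (algebraMap K L).injective (by rw [h2, map_zero])

variable {A F K L} in
/-- The Galois group preserves the integral units. -/
lemma smul_mem_intUnits (σ : L ≃ₐ[K] L) {x : Lˣ} (hx : x ∈ intUnits A F L) :
    σ • x ∈ intUnits A F L := by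
  refine ⟨?_, ?_⟩
  · have : ((σ • x : Lˣ) : L) = σ (x : L) := rfl
    rw [this]
    exact isInt_algEquiv σ hx.1
  · have : (((σ • x)⁻¹ : Lˣ) : L) = σ ((x⁻¹ : Lˣ) : L) := by
      rw [← smul_inv']
      rfl
    rw [this]
    exact isInt_algEquiv σ hx.2

end Basic

/-- **(T1a)** `H¹(Gal(L/K), U_L) = 0` for `L / K` unramified: unconditional. -/
theorem unramUnitsH1 : UnramUnitsH1Statement := by
  intro A F _ _ _ _ _ _ _ _ _ K _ _ _ L _ _ _ _ _ _ hur c hc _
  obtain ⟨m₀, hm₀⟩ := isMulCoboundary₁_of_isMulCocycle₁_of_aut_to_units c hc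
  obtain ⟨y, hy⟩ := hur m₀
  refine ⟨m₀ * (unitsIncl L K y)⁻¹, hy, fun g => ?_⟩
  have hfix : g • unitsIncl L K y = unitsIncl L K y := by
    ext
    change g (algebraMap K L y) = algebraMap K L y
    exact g.commutes _
  rw [smul_mul', smul_inv', hfix, ← hm₀ g]
  rw [div_eq_mul_inv, div_eq_mul_inv, mul_inv, inv_inv]
  rw [mul_mul_mul_comm, mul_comm (unitsIncl L K y)⁻¹, mul_inv_cancel, mul_one]

section T1b

variable (A F : Type) [CommRing A] [Field F] [Algebra A F]
variable (K : Type) [Field K] [Algebra F K]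
variable (L : Type) [Field L] [Algebra F L] [Algebra K L] [IsScalarTower F K L]

/-- The Galois group acts on the integral units `U_L`. -/
@[reducible] noncomputable def intUnitsAction :
    MulDistribMulAction (L ≃ₐ[K] L) (intUnits A F L) where
  smul g x := ⟨g • (x : Lˣ), smul_mem_intUnits g x.2⟩
  one_smul x := Subtype.ext (one_smul _ _)
  mul_smul g h x := Subtype.ext (mul_smul _ _ _)
  smul_mul g x y := Subtype.ext (smul_mul' _ _ _)
  smul_one g := Subtype.ext (smul_one _)

end T1b

/-- **(T1b)** `H²(Gal(L/K), U_L) = 0` for `L / K` unramified, from the cyclic pieces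
UR1, A4b, A4c and UR4. -/
theorem unramUnitsH2_of (hUR1 : UnramCyclicStatement)
    (hA4b : CycCocycleCoboundaryIffStatement) (hA4c : CycCocycleSurjStatement)
    (hUR4 : UnramNormUnitsStatement) : UnramUnitsH2Statement := by
  intro A F _ _ _ _ _ _ _ _ _ K _ _ _ L _ _ _ _ _ _ hur c hc hcU
  haveI : IsCyclic (L ≃ₐ[K] L) := hUR1 A F K L hur
  obtain ⟨σ, hσ⟩ := IsCyclic.exists_generator (α := L ≃ₐ[K] L)
  letI : MulDistribMulAction (L ≃ₐ[K] L) (intUnits A F L) := intUnitsAction A F K L
  have hsmul : ∀ (g : L ≃ₐ[K] L) (x : intUnits A F L), ((g • x : intUnits A F L) : Lˣ) = g • (x : Lˣ) :=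
    fun _ _ => rfl
  -- the cocycle with values in `U_L`
  let c' : (L ≃ₐ[K] L) × (L ≃ₐ[K] L) → intUnits A F L := fun p => ⟨c p, hcU p⟩
  have hc' : IsMulCocycle₂ c' := by
    intro g h j
    apply Subtype.ext
    simp only [Subgroup.coe_mul, hsmul]
    exact hc g h j
  obtain ⟨x, hσx, b, hb⟩ := hA4c (L ≃ₐ[K] L) (intUnits A F L) σ hσ c' hc'
  -- `x` is fixed by the whole group
  have hfix : ∀ g : L ≃ₐ[K] L, g • x = x := by
    intro g
    obtain ⟨k, rfl⟩ := Subgroup.mem_zpowers_iff.1 (hσ g)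
    have hstab : σ ∈ MulAction.stabilizer (L ≃ₐ[K] L) x := hσx
    exact (MulAction.stabilizer (L ≃ₐ[K] L) x).zpow_mem hstab k
  -- hence `x` comes from `K`
  have hxK : ((x : Lˣ) : L) ∈ Set.range (algebraMap K L) := by
    rw [IsGalois.mem_range_algebraMap_iff_fixed]
    intro g
    have := congrArg (fun u : intUnits A F L => ((u : Lˣ) : L)) (hfix g)
    exact this
  obtain ⟨y, hy⟩ := hxK
  have hy0 : y ≠ 0 := by
    rintro rfl
    rw [map_zero] at hy
    exact (x : Lˣ).ne_zero hy.symm
  let yu : Kˣ := Units.mk0 y hy0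
  have hyu : unitsIncl L K yu = (x : Lˣ) := Units.ext hy
  have hyuU : yu ∈ intUnits A F K := by
    refine ⟨isInt_of_isInt_algebraMap (L := L) ?_, isInt_of_isInt_algebraMap (L := L) ?_⟩
    · change IsInt A F L (algebraMap K L y)
      rw [hy]; exact x.2.1
    · have : algebraMap K L ((yu⁻¹ : Kˣ) : K) = (((x : Lˣ)⁻¹ : Lˣ) : L) := by
        rw [← hyu]; rfl
      rw [this]; exact x.2.2
  obtain ⟨w, hw, hNw⟩ := hUR4 A F K L hur yu hyuU
  -- the norm is the product over the Galois group
  have hprod : ∏ g : L ≃ₐ[K] L, g • (⟨w, hw⟩ : intUnits A F L) = x := by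
    apply Subtype.ext
    apply Units.ext
    have h1 : (((∏ g : L ≃ₐ[K] L, g • (⟨w, hw⟩ : intUnits A F L) : intUnits A F L) : Lˣ) : L)
        = ∏ g : L ≃ₐ[K] L, g (w : L) := by
      rw [Subgroup.val_finsetProd, Units.coe_prod]
      rfl
    rw [h1, ← Algebra.norm_eq_prod_automorphisms K (w : L), ← hy]
    have := congrArg (fun u : Kˣ => (u : K)) hNw
    simp only [normUnits_coe] at this
    rw [this]
    rfl
  obtain ⟨b', hb'⟩ := ((hA4b (L ≃ₐ[K] L) (intUnits A F L) σ hσ x hσx).2 ⟨⟨w, hw⟩, hprod⟩)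
  refine ⟨fun g => ((b g * b' g : intUnits A F L) : Lˣ), fun g => (b g * b' g).2, fun g h => ?_⟩
  have e1 := congrArg (fun u : intUnits A F L => (u : Lˣ)) (hb g h)
  have e2 := congrArg (fun u : intUnits A F L => (u : Lˣ)) (hb' g h)
  simp only [Subgroup.coe_mul, Subgroup.coe_div, hsmul] at e1 e2
  have e3 : c (g, h) = ((c' (g, h) : intUnits A F L) : Lˣ) := rfl
  rw [e3]
  have e4 : ((c' (g, h) : intUnits A F L) : Lˣ)
      = (g • (b h : Lˣ) / (b (g * h) : Lˣ) * (b g : Lˣ)) *
        (g • (b' h : Lˣ) / (b' (g * h) : Lˣ) * (b' g : Lˣ)) := by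
    rw [e1, e2, div_mul_cancel]
  rw [e4]
  simp only [Subgroup.coe_mul, smul_mul', div_eq_mul_inv, mul_inv]
  ac_rfl

end Fermat.Agent.S55.Local.H415
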